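/-
DS / chapter G-RED, brick IGU (helper77): the substitution `q ↦ q^M` is an isometry for the Gauss
valuation.

`O ⊂ K` a valuation subring with a uniformiser `π` (`GaussGen8.IsUnif`), `gaussRing O ⊂ K((q))` the
Gauss ring (`RED/PUR/GaussGen8`), `V = qExpand K M : K((q)) → K((q))`, `q ↦ q^M`.

* `qExpand_mem_gaussRing`, `qExpand_mem_fracField` : `V` preserves the Gauss ring and `Frac O((q))`;
* `gaussRed_qExpand` : `V` commutes with the reduction;
* `qExpand_mem_gaussRing_iff` : on `Frac O((q))`, `V f` is Gauss-integral iff `f` is.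

Used to transport "the Gauss valuation of `K(j)` has a unique extension to `K(j(q^d) : d ∣ M)`"
(Igusa for `X₀(M)`) to the pair `(K(j(q^M)), K(j(q^{Md}) : d ∣ M))`.
-/
import Mathlib
import Fermat.Agent.RED.PUR.GaussGen8
import Fermat.Prelude.Thm_ModularCurve_coeffMap_qExpand

set_option autoImplicit false

noncomputable section

namespace Fermat.Agent.DS.Igu77.Isometry

open HahnSeries ModularCurve
open Fermat.Agent.RED.PUR.GaussGen8

variable {K : Type*} [Field K] (O : ValuationSubring K) (M : ℕ) [NeZero M]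

theorem qExpand_embK (a : LaurentSeries ↥O) :
    qExpand K M (embK O a) = embK O (qExpand ↥O M a) :=
  (coeffMap_qExpand O.subtype M a).symm

theorem redL_qExpand (a : LaurentSeries ↥O) :
    redL O (qExpand ↥O M a) = qExpand (Res O) M (redL O a) :=
  coeffMap_qExpand (res0 O) M a

variable {O}

theorem isRep_qExpand {f : LaurentSeries K} {a s : LaurentSeries ↥O} (h : IsRep O f a s) :
    IsRep O (qExpand K M f) (qExpand ↥O M a) (qExpand ↥O M s) := by
  refine ⟨?_, ?_⟩
  · rw [redL_qExpand]
    intro h0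
    apply h.1
    apply qExpand_injective (R := Res O) M
    rw [h0, map_zero]
  · rw [← qExpand_embK, ← qExpand_embK, ← map_mul, h.2]

variable (O)

/-- `V` preserves the Gauss ring. -/
theorem qExpand_mem_gaussRing {f : LaurentSeries K} (hf : f ∈ gaussRing O) :
    qExpand K M f ∈ gaussRing O := by
  obtain ⟨a, s, h⟩ := hf
  exact ⟨_, _, isRep_qExpand M h⟩

/-- `V` preserves `Frac O((q))`. -/
theorem qExpand_mem_fracField {f : LaurentSeries K} (hf : f ∈ fracField O) :
    qExpand K M f ∈ fracField O := by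
  obtain ⟨a, b, hb, h⟩ := hf
  refine ⟨qExpand ↥O M a, qExpand ↥O M b, ?_, ?_⟩
  · intro h0
    apply hb
    apply qExpand_injective (R := ↥O) M
    rw [h0, map_zero]
  · rw [← qExpand_embK, ← qExpand_embK, ← map_mul, h]

/-- `V` commutes with the reduction. -/
theorem gaussRed_qExpand (f : ↥(gaussRing O)) :
    gaussRed O ⟨qExpand K M (f : LaurentSeries K), qExpand_mem_gaussRing O M f.2⟩ =
      qExpand (Res O) M (gaussRed O f) := by
  obtain ⟨a, s, h⟩ := f.2
  have h' := isRep_qExpand M h
  rw [gaussRed_eq O (f := ⟨qExpand K M (f : LaurentSeries K), qExpand_mem_gaussRing O M f.2⟩) h',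
    gaussRed_eq O h, redL_qExpand, redL_qExpand, map_div₀]

variable {O}

/-- On `Frac O((q))`, `V` reflects Gauss-integrality. -/
theorem mem_gaussRing_of_qExpand_mem {π : ↥O} (hπ : IsUnif O π) {f : LaurentSeries K}
    (hf : f ∈ fracField O) (h : qExpand K M f ∈ gaussRing O) : f ∈ gaussRing O := by
  by_cases hf0 : f = 0
  · rw [hf0]
    exact zero_mem _
  rcases mem_or_inv_mem hπ hf with h1 | h1
  · exact h1
  · by_cases hred : gaussRed O ⟨f⁻¹, h1⟩ = 0
    · exfalso
      obtain ⟨g, hg⟩ := (gaussRed_eq_zero_iff hπ ⟨f⁻¹, h1⟩).mp hred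
      have hg' : f⁻¹ = HahnSeries.C ((π : ↥O) : K) * (g : LaurentSeries K) :=
        congrArg (fun x : ↥(gaussRing O) => (x : LaurentSeries K)) hg
      -- the two Gauss-integral elements `V f` and `V g`
      let u : ↥(gaussRing O) := ⟨qExpand K M f, h⟩
      let v : ↥(gaussRing O) := ⟨qExpand K M (g : LaurentSeries K), qExpand_mem_gaussRing O M g.2⟩
      have huv : u * (constG O π * v) = 1 := by
        apply Subtype.ext
        show qExpand K M f * (HahnSeries.C ((π : ↥O) : K) * qExpand K M (g : LaurentSeries K)) = 1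
        rw [← qExpand_C (R := K) M ((π : ↥O) : K), ← map_mul, ← map_mul, ← hg',
          mul_inv_cancel₀ hf0, map_one]
      have h1' := congrArg (gaussRed O) huv
      rw [map_mul, map_mul, gaussRed_unif hπ, zero_mul, mul_zero, map_one] at h1'
      exact zero_ne_one h1'
    · have := inv_mem_of_gaussRed_ne_zero O ⟨f⁻¹, h1⟩ hred
      simpa using this

/-- On `Frac O((q))`: `V f` is Gauss-integral iff `f` is. -/
theorem qExpand_mem_gaussRing_iff {π : ↥O} (hπ : IsUnif O π) {f : LaurentSeries K}
    (hf : f ∈ fracField O) : qExpand K M f ∈ gaussRing O ↔ f ∈ gaussRing O :=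
  ⟨mem_gaussRing_of_qExpand_mem M hπ hf, qExpand_mem_gaussRing O M⟩

end Fermat.Agent.DS.Igu77.Isometry
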