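/-
DS / chapter G-RED, brick IGU (helper77): decomposition groups, abstract part 1.

`L / k` finite Galois, `W` a valuation subring of `L`.  The stabiliser of `W` in `Gal(L/k)` is
everything as soon as

* it contains an element `τ`,
* there is an intermediate field `E` to which `W ∩ k` has only ONE extension,
* every `β ∈ Gal(L/E)` conjugates `τ` into a power of `τ`,
* the normal closure of `τ` is the whole Galois group.

Consequently `W` is the only valuation subring of `L` with the trace `W ∩ k`
(`eq_of_trace_eq`).  Intended use: `k = K(j)`, `L` the function field of `X(M)` inside `K((Q))`,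
`W` the Gauss valuation ring, `τ : Q ↦ ζ Q`, `E = K(j, j(Q^M…))` (Igusa for `X₀(M)`), and the normal
closure statement is `SL₂(ℤ) = ⟨S, T⟩`.  Transitivity of the Galois group on the extensions of a
valuation subring is `X0/AbsSurj.exists_eq_comap`.
-/
import Mathlib
import Fermat.Agent.X0.AbsSurj

set_option autoImplicit false

namespace Fermat.Agent.DS.Igu77.DecompTop

open IntermediateField

section Transitive

variable {k L : Type*} [Field k] [Field L] [Algebra k L] [FiniteDimensional k L] [IsGalois k L]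

/-- **Transitivity**: two valuation subrings of a finite Galois extension with the same trace on
the base field are conjugate. -/
theorem exists_forall_mem_iff (W W' : ValuationSubring L)
    (h : ∀ y : k, algebraMap k L y ∈ W' ↔ algebraMap k L y ∈ W) :
    ∃ g : L ≃ₐ[k] L, ∀ x : L, x ∈ W' ↔ g x ∈ W := by
  classical
  have hcard : Fintype.card (L ≃ₐ[k] L) = Module.finrank k L := by
    rw [← Nat.card_eq_fintype_card]
    exact IsGalois.card_aut_eq_finrank k L
  have hinj : Function.Injective (fun g : L ≃ₐ[k] L => ((g : L ≃+* L) : L →+* L)) := by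
    intro g g' hgg
    ext x
    exact congrArg (fun f : L →+* L => f x) hgg
  obtain ⟨g, hg⟩ := Fermat.Agent.X0.AbsSurj.exists_eq_comap (k := k) (F := L) (E := L)
    (fun g : L ≃ₐ[k] L => ((g : L ≃+* L) : L →+* L)) hcard hinj
    (fun i j y => by
      show i (algebraMap k L y) = j (algebraMap k L y)
      rw [i.commutes, j.commutes])
    W W'
    (fun i y => by
      show algebraMap k L y ∈ W' ↔ i (algebraMap k L y) ∈ W
      rw [i.commutes]
      exact h y)
  refine ⟨g, fun x => ?_⟩
  rw [hg]
  exact Iff.rfl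

end Transitive

section Main

variable {k L : Type*} [Field k] [Field L] [Algebra k L] [FiniteDimensional k L] [IsGalois k L]

/-- the stabiliser of a valuation subring, membership form. -/
def stab (W : ValuationSubring L) : Subgroup (L ≃ₐ[k] L) where
  carrier := {g | ∀ x : L, g x ∈ W ↔ x ∈ W}
  mul_mem' := by
    intro a b ha hb x
    rw [AlgEquiv.mul_apply, ha (b x), hb x]
  one_mem' := fun _ => Iff.rfl
  inv_mem' := by
    intro a ha x
    have h := ha (a⁻¹ x)
    rw [← AlgEquiv.mul_apply, mul_inv_cancel, AlgEquiv.one_apply] at h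
    exact h.symm

omit [FiniteDimensional k L] [IsGalois k L] in
theorem mem_stab (W : ValuationSubring L) (g : L ≃ₐ[k] L) :
    g ∈ stab (k := k) W ↔ ∀ x : L, g x ∈ W ↔ x ∈ W := Iff.rfl

/-- **The decomposition group is everything.** -/
theorem stab_eq_top (W : ValuationSubring L) (τ : L ≃ₐ[k] L) (hτ : τ ∈ stab (k := k) W)
    (E : IntermediateField k L)
    (huniq : ∀ W' : ValuationSubring L,
      (∀ y : k, algebraMap k L y ∈ W' ↔ algebraMap k L y ∈ W) → ∀ x ∈ E, x ∈ W' ↔ x ∈ W)
    (hnorm : ∀ β : L ≃ₐ[k] L, (∀ x ∈ E, β x = x) → ∃ n : ℕ, β * τ * β⁻¹ = τ ^ n)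
    (hgen : Subgroup.normalClosure ({τ} : Set (L ≃ₐ[k] L)) = ⊤) :
    stab (k := k) W = ⊤ := by
  -- every conjugate of `τ` stabilises `W`
  have hconj : ∀ g : L ≃ₐ[k] L, g * τ * g⁻¹ ∈ stab (k := k) W := by
    intro g
    -- the conjugate valuation subring
    let W' : ValuationSubring L := W.comap ((g : L ≃+* L) : L →+* L)
    have hW' : ∀ x : L, x ∈ W' ↔ g x ∈ W := fun _ => Iff.rfl
    have htr : ∀ y : k, algebraMap k L y ∈ W' ↔ algebraMap k L y ∈ W := by
      intro y
      rw [hW', g.commutes]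
    have hE := huniq W' htr
    -- transitivity over `E`
    obtain ⟨β, hβ⟩ := exists_forall_mem_iff (k := ↥E) (L := L) W W' (by
      intro y
      exact hE (y : L) y.2)
    let β' : L ≃ₐ[k] L := β.restrictScalars k
    have hβ' : ∀ x : L, β' x = β x := fun _ => rfl
    have hfix : ∀ x ∈ E, β' x = x := by
      intro x hx
      rw [hβ']
      exact β.commutes ⟨x, hx⟩
    -- `h := g β'⁻¹` stabilises `W`
    have hh : g * β'⁻¹ ∈ stab (k := k) W := by
      intro x
      rw [AlgEquiv.mul_apply, ← hW', hβ, ← hβ', ← AlgEquiv.mul_apply, mul_inv_cancel,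
        AlgEquiv.one_apply]
    obtain ⟨n, hn⟩ := hnorm β' hfix
    have hdecomp : g * τ * g⁻¹ = (g * β'⁻¹) * (β' * τ * β'⁻¹) * (g * β'⁻¹)⁻¹ := by
      group
    rw [hdecomp, hn]
    exact (stab W).mul_mem ((stab W).mul_mem hh ((stab W).pow_mem hτ n)) ((stab W).inv_mem hh)
  rw [eq_top_iff, ← hgen]
  unfold Subgroup.normalClosure
  rw [Subgroup.closure_le]
  intro x hx
  rw [Group.mem_conjugatesOfSet_iff] at hx
  obtain ⟨a, ha, hax⟩ := hx
  rw [Set.mem_singleton_iff] at ha
  subst ha
  rw [isConj_iff] at hax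
  obtain ⟨c, rfl⟩ := hax
  exact hconj c

/-- **Uniqueness of the extension**: under the hypotheses of `stab_eq_top`, `W` is the only
valuation subring of `L` with its trace on `k`. -/
theorem eq_of_trace_eq (W : ValuationSubring L) (τ : L ≃ₐ[k] L) (hτ : τ ∈ stab (k := k) W)
    (E : IntermediateField k L)
    (huniq : ∀ W' : ValuationSubring L,
      (∀ y : k, algebraMap k L y ∈ W' ↔ algebraMap k L y ∈ W) → ∀ x ∈ E, x ∈ W' ↔ x ∈ W)
    (hnorm : ∀ β : L ≃ₐ[k] L, (∀ x ∈ E, β x = x) → ∃ n : ℕ, β * τ * β⁻¹ = τ ^ n)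
    (hgen : Subgroup.normalClosure ({τ} : Set (L ≃ₐ[k] L)) = ⊤)
    (W' : ValuationSubring L)
    (htr : ∀ y : k, algebraMap k L y ∈ W' ↔ algebraMap k L y ∈ W) : W' = W := by
  obtain ⟨g, hg⟩ := exists_forall_mem_iff (k := k) W W' htr
  have hs : g ∈ stab (k := k) W := by
    rw [stab_eq_top W τ hτ E huniq hnorm hgen]
    exact Subgroup.mem_top g
  ext x
  rw [hg x]
  exact hs x

/-- Uniqueness passes to every intermediate field: two valuation subrings of `L` with the same
trace on `k` have the same trace on every intermediate field (trivially, they are equal). -/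
theorem trace_eq_of_trace_eq (W : ValuationSubring L) (τ : L ≃ₐ[k] L)
    (hτ : τ ∈ stab (k := k) W) (E : IntermediateField k L)
    (huniq : ∀ W' : ValuationSubring L,
      (∀ y : k, algebraMap k L y ∈ W' ↔ algebraMap k L y ∈ W) → ∀ x ∈ E, x ∈ W' ↔ x ∈ W)
    (hnorm : ∀ β : L ≃ₐ[k] L, (∀ x ∈ E, β x = x) → ∃ n : ℕ, β * τ * β⁻¹ = τ ^ n)
    (hgen : Subgroup.normalClosure ({τ} : Set (L ≃ₐ[k] L)) = ⊤)
    (W' : ValuationSubring L)
    (htr : ∀ y : k, algebraMap k L y ∈ W' ↔ algebraMap k L y ∈ W) (x : L) :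
    x ∈ W' ↔ x ∈ W := by
  rw [eq_of_trace_eq W τ hτ E huniq hnorm hgen W' htr]

end Main

end Fermat.Agent.DS.Igu77.DecompTop
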