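/-
DS / chapter G-RED, brick IGU-FIN (helper77), part 1: the interface `IgusaInput` between the
concrete level-`M` function field (brick IGU-AN) and the valuation-theoretic argument, and the
first consequences.

`K` a field, `O ⊂ K` a valuation subring with uniformiser `π`, `M ≥ 1`.  An `IgusaInput K O M` is

* a finite Galois extension `L / k` of abstract fields together with an embedding
  `ι : L → K((Q))` with values in `Frac O((Q))`, such that `ι k = K(j(Q^M))` and `ι L` contains
  `V (K(j(q^d) : d ∣ M))`, `V = (q ↦ Q^M)`  (think: `L` = function field of `X(M)` over `K ∋ ζ_M`,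
  expanded at `∞` in the variable `Q = q^{1/M}`);
* an element `τ ∈ Gal(L/k)` preserving Gauss-integrality (`τ` = restriction of `Q ↦ ζ Q`);
* `norm` : every `β ∈ Gal(L/k)` fixing `j(Q^{M²})` conjugates `τ` to a power of `τ`
  (`β ∈` image of `Γ₀(M)`, `γ T γ⁻¹ ≡ T^{a²} mod Γ(M)`);
* `gen` : the normal closure of `τ` is `Gal(L/k)`  (`SL₂(ℤ) = ⟨S, T⟩`).

From this and the Igusa theorem for `X₀(M)` in the form `X0Uniq` ("the Gauss valuation of `K(j)`
has only one extension to `K(j(q^d) : d ∣ M)`"):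

* `conj_mem_iff` : every `g ∈ Gal(L/k)` preserves Gauss-integrality (the decomposition group of the
  Gauss valuation is everything);
* `coeff_minpoly_mem` : the minimal polynomial over `k` of a Gauss-integral element of `L` has
  Gauss-integral coefficients.
-/
import Mathlib
import Fermat.Agent.DS.Igu77.DecompTop
import Fermat.Agent.DS.Igu77.Isometry
import Fermat.Agent.RED.PUR.GaussGen8
import Fermat.Prelude.Def_ModularCurve_X0ModL

set_option autoImplicit false

noncomputable section

namespace Fermat.Agent.DS.Igu77.Input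

open HahnSeries ModularCurve IntermediateField
open Fermat.Agent.RED.PUR.GaussGen8 Fermat.Agent.DS.Igu77.DecompTop
  Fermat.Agent.DS.Igu77.Isometry

/-- The image of `K(j(q^d) : d ∣ M)` under `q ↦ q^M`. -/
abbrev E0V (K : Type) [Field K] (M : ℕ) [NeZero M] : IntermediateField K (LaurentSeries K) :=
  (modularFunctionFieldFullC K M).map (qExpandAlgHomC K M)

/-- **The interface of the Igusa argument** (to be supplied by the concrete level-`M` chapter). -/
structure IgusaInput (K : Type) [Field K] (O : ValuationSubring K) (M : ℕ) [NeZero M] where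
  /-- the base field, a copy of `K(j(Q^M))` -/
  k : Type
  /-- the level-`M` field -/
  L : Type
  [instk : Field k]
  [instL : Field L]
  [instAlg : Algebra k L]
  [instFD : FiniteDimensional k L]
  [instGal : IsGalois k L]
  /-- the `Q`-expansion at infinity -/
  ι : L →+* LaurentSeries K
  ι_mem : ∀ x : L, ι x ∈ fracField O
  base_mem : ∀ c : k, ι (algebraMap k L c) ∈ K⟮qExpand K M (jqModC K)⟯
  base_surj : ∀ y ∈ K⟮qExpand K M (jqModC K)⟯, ∃ c : k, ι (algebraMap k L c) = y
  full : ∀ y ∈ E0V K M, ∃ x : L, ι x = y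
  /-- the restriction of `Q ↦ ζ Q` -/
  τ : L ≃ₐ[k] L
  τ_gauss : ∀ x : L, ι (τ x) ∈ gaussRing O ↔ ι x ∈ gaussRing O
  norm : ∀ β : L ≃ₐ[k] L, (∀ x : L, ι x = qExpand K (M * M) (jqModC K) → β x = x) →
    ∃ n : ℕ, β * τ * β⁻¹ = τ ^ n
  gen : Subgroup.normalClosure ({τ} : Set (L ≃ₐ[k] L)) = ⊤

attribute [instance] IgusaInput.instk IgusaInput.instL IgusaInput.instAlg IgusaInput.instFD
  IgusaInput.instGal

/-- **Igusa for `X₀(M)`, uniqueness form**: the Gauss ring of `E₀ = K(j(q^d) : d ∣ M)` is the only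
valuation subring of `E₀` whose trace on `K(j)` is the Gauss ring. -/
def X0Uniq (K : Type) [Field K] (O : ValuationSubring K) (M : ℕ) [NeZero M] : Prop :=
  ∀ W'' : ValuationSubring ↥(modularFunctionFieldFullC K M),
    (∀ y : ↥(modularFunctionFieldFullC K M), (y : LaurentSeries K) ∈ K⟮jqModC K⟯ →
      (y ∈ W'' ↔ (y : LaurentSeries K) ∈ gaussRing O)) →
    ∀ x : ↥(modularFunctionFieldFullC K M), x ∈ W'' ↔ (x : LaurentSeries K) ∈ gaussRing O

variable {K : Type} [Field K] {O : ValuationSubring K} {M : ℕ} [NeZero M]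

namespace IgusaInput

variable (I : IgusaInput K O M)

theorem ι_injective : Function.Injective I.ι := I.ι.injective

/-- The Gauss valuation subring of `L`. -/
def W {π : ↥O} (hπ : IsUnif O π) : ValuationSubring I.L where
  carrier := {x | I.ι x ∈ gaussRing O}
  mul_mem' := fun {a b} ha hb => by
    show I.ι (a * b) ∈ gaussRing O
    rw [map_mul]
    exact mul_mem ha hb
  one_mem' := by
    show I.ι 1 ∈ gaussRing O
    rw [map_one]
    exact one_mem _
  add_mem' := fun {a b} ha hb => by
    show I.ι (a + b) ∈ gaussRing O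
    rw [map_add]
    exact add_mem ha hb
  zero_mem' := by
    show I.ι 0 ∈ gaussRing O
    rw [map_zero]
    exact zero_mem _
  neg_mem' := fun {a} ha => by
    show I.ι (-a) ∈ gaussRing O
    rw [map_neg]
    exact neg_mem ha
  mem_or_inv_mem' := fun x => by
    have h := mem_or_inv_mem hπ (I.ι_mem x)
    rw [← map_inv₀] at h
    exact h

theorem mem_W {π : ↥O} (hπ : IsUnif O π) (x : I.L) : x ∈ I.W hπ ↔ I.ι x ∈ gaussRing O :=
  Iff.rfl

/-- `K(j(Q^M)) ≤ V(E₀)`. -/
theorem base_le_E0V : K⟮qExpand K M (jqModC K)⟯ ≤ E0V K M := by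
  rw [adjoin_simple_le_iff]
  exact ⟨jqModC K, jqModC_mem_full K M, rfl⟩

/-- `j(Q^{M²}) ∈ V(E₀)`. -/
theorem jMM_mem_E0V : qExpand K (M * M) (jqModC K) ∈ E0V K M := by
  refine ⟨qExpand K M (jqModC K), jqModCd_mem_full K M dvd_rfl, ?_⟩
  show qExpand K M (qExpand K M (jqModC K)) = _
  rw [qExpand_qExpand]

/-- The intermediate field of `L / k` lying over `V(E₀)`. -/
def EB : IntermediateField I.k I.L where
  carrier := {x | I.ι x ∈ E0V K M}
  mul_mem' := fun {a b} ha hb => by
    show I.ι (a * b) ∈ E0V K M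
    rw [map_mul]
    exact mul_mem ha hb
  one_mem' := by
    show I.ι 1 ∈ E0V K M
    rw [map_one]
    exact one_mem _
  add_mem' := fun {a b} ha hb => by
    show I.ι (a + b) ∈ E0V K M
    rw [map_add]
    exact add_mem ha hb
  zero_mem' := by
    show I.ι 0 ∈ E0V K M
    rw [map_zero]
    exact zero_mem _
  algebraMap_mem' := fun c => base_le_E0V (I.base_mem c)
  inv_mem' := fun a ha => by
    show I.ι a⁻¹ ∈ E0V K M
    rw [map_inv₀]
    exact inv_mem ha

theorem mem_EB (x : I.L) : x ∈ I.EB ↔ I.ι x ∈ E0V K M := Iff.rfl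

/-! ### the uniqueness hypothesis of `DecompTop.stab_eq_top` from Igusa for `X₀(M)` -/

section Uniq

variable {π : ↥O} (hπ : IsUnif O π)

/-- The valuation subring of `E₀` induced by a valuation subring of `L` via `V`. -/
def pullW (W' : ValuationSubring I.L) : ValuationSubring ↥(modularFunctionFieldFullC K M) where
  carrier := {y | ∃ x : I.L, I.ι x = qExpand K M (y : LaurentSeries K) ∧ x ∈ W'}
  mul_mem' := by
    rintro a b ⟨x, hx, hxW⟩ ⟨x', hx', hxW'⟩
    refine ⟨x * x', ?_, W'.mul_mem _ _ hxW hxW'⟩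
    rw [map_mul, hx, hx']
    exact (map_mul (qExpand K M) _ _).symm
  one_mem' := ⟨1, by rw [map_one]; exact (map_one (qExpand K M)).symm, W'.one_mem⟩
  add_mem' := by
    rintro a b ⟨x, hx, hxW⟩ ⟨x', hx', hxW'⟩
    refine ⟨x + x', ?_, W'.add_mem _ _ hxW hxW'⟩
    rw [map_add, hx, hx']
    exact (map_add (qExpand K M) _ _).symm
  zero_mem' := ⟨0, by rw [map_zero]; exact (map_zero (qExpand K M)).symm, W'.zero_mem⟩
  neg_mem' := by
    rintro a ⟨x, hx, hxW⟩
    refine ⟨-x, ?_, W'.neg_mem _ hxW⟩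
    rw [map_neg, hx]
    exact (map_neg (qExpand K M) _).symm
  mem_or_inv_mem' := by
    intro y
    obtain ⟨x, hx⟩ := I.full (qExpand K M (y : LaurentSeries K))
      ⟨(y : LaurentSeries K), y.2, rfl⟩
    rcases W'.mem_or_inv_mem x with h | h
    · exact Or.inl ⟨x, hx, h⟩
    · refine Or.inr ⟨x⁻¹, ?_, h⟩
      rw [map_inv₀, hx]
      exact (map_inv₀ (qExpand K M) _).symm

theorem mem_pullW (W' : ValuationSubring I.L) (y : ↥(modularFunctionFieldFullC K M)) (x : I.L)
    (hx : I.ι x = qExpand K M (y : LaurentSeries K)) : y ∈ I.pullW W' ↔ x ∈ W' := by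
  constructor
  · rintro ⟨x', hx', hxW⟩
    have : x' = x := I.ι_injective (hx'.trans hx.symm)
    rwa [← this]
  · intro h
    exact ⟨x, hx, h⟩

/-- `V` maps `K(j)` into `K(j(Q^M))`. -/
theorem qExpand_mem_base {y : LaurentSeries K} (hy : y ∈ K⟮jqModC K⟯) :
    qExpand K M y ∈ K⟮qExpand K M (jqModC K)⟯ := by
  have h1 : qExpandAlgHomC K M y ∈ (K⟮jqModC K⟯).map (qExpandAlgHomC K M) := ⟨y, hy, rfl⟩
  rw [IntermediateField.adjoin_map, Set.image_singleton] at h1
  exact h1

include hπ in
/-- **`huniq`**: a valuation subring of `L` with the Gauss trace on `k` has the Gauss trace on the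
intermediate field over `V(E₀)`. -/
theorem huniq (hE0 : modularFunctionFieldFullC K M ≤ fracField O) (hX0 : X0Uniq K O M)
    (W' : ValuationSubring I.L)
    (htr : ∀ c : I.k, algebraMap I.k I.L c ∈ W' ↔ algebraMap I.k I.L c ∈ I.W hπ)
    (x : I.L) (hx : x ∈ I.EB) : x ∈ W' ↔ x ∈ I.W hπ := by
  -- the pulled-back valuation subring has the Gauss trace on `K(j)`
  have htr'' : ∀ y : ↥(modularFunctionFieldFullC K M), (y : LaurentSeries K) ∈ K⟮jqModC K⟯ →
      (y ∈ I.pullW W' ↔ (y : LaurentSeries K) ∈ gaussRing O) := by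
    intro y hy
    obtain ⟨c, hc⟩ := I.base_surj _ (qExpand_mem_base (M := M) hy)
    rw [I.mem_pullW W' y _ hc, htr c, I.mem_W hπ, hc]
    exact qExpand_mem_gaussRing_iff M hπ (hE0 y.2)
  have hall := hX0 (I.pullW W') htr''
  obtain ⟨y, hyE, hy⟩ := (I.mem_EB x).mp hx
  have hy' : I.ι x = qExpand K M ((⟨y, hyE⟩ : ↥(modularFunctionFieldFullC K M)) : LaurentSeries K) :=
    hy.symm
  rw [← I.mem_pullW W' ⟨y, hyE⟩ x hy', hall ⟨y, hyE⟩, I.mem_W hπ, hy']
  exact (qExpand_mem_gaussRing_iff M hπ (hE0 hyE)).symm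

include hπ in
/-- **The decomposition group of the Gauss valuation of `L` is everything.** -/
theorem stab_eq_top (hE0 : modularFunctionFieldFullC K M ≤ fracField O) (hX0 : X0Uniq K O M) :
    stab (k := I.k) (I.W hπ) = ⊤ := by
  refine DecompTop.stab_eq_top (I.W hπ) I.τ ?_ I.EB ?_ ?_ I.gen
  · intro x
    exact I.τ_gauss x
  · intro W' htr x hx
    exact I.huniq hπ hE0 hX0 W' htr x hx
  · intro β hβ
    refine I.norm β fun x hx => hβ x ?_
    rw [I.mem_EB, hx]
    exact jMM_mem_E0V

include hπ in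
/-- Every element of `Gal(L/k)` preserves Gauss-integrality. -/
theorem conj_mem_iff (hE0 : modularFunctionFieldFullC K M ≤ fracField O) (hX0 : X0Uniq K O M)
    (g : I.L ≃ₐ[I.k] I.L) (x : I.L) : I.ι (g x) ∈ gaussRing O ↔ I.ι x ∈ gaussRing O := by
  have hg : g ∈ stab (k := I.k) (I.W hπ) := by
    rw [I.stab_eq_top hπ hE0 hX0]
    exact Subgroup.mem_top g
  exact hg x

include hπ in
/-- **Integrality of the minimal polynomial**: the minimal polynomial over `k` of a Gauss-integral
element of `L` has Gauss-integral coefficients. -/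
theorem coeff_minpoly_mem (hE0 : modularFunctionFieldFullC K M ≤ fracField O)
    (hX0 : X0Uniq K O M) (b : I.L) (hb : I.ι b ∈ gaussRing O) (n : ℕ) :
    I.ι (algebraMap I.k I.L ((minpoly I.k b).coeff n)) ∈ gaussRing O := by
  classical
  have hcard : Fintype.card (I.L ≃ₐ[I.k] I.L) = Module.finrank I.k I.L := by
    rw [← Nat.card_eq_fintype_card]
    exact IsGalois.card_aut_eq_finrank I.k I.L
  have hinj : Function.Injective
      (fun g : I.L ≃ₐ[I.k] I.L => ((g : I.L ≃+* I.L) : I.L →+* I.L)) := by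
    intro g g' hgg
    ext x
    exact congrArg (fun f : I.L →+* I.L => f x) hgg
  have h := Fermat.Agent.X0.AbsSurj.coeff_minpoly_mem (k := I.k) (F := I.L) (E := I.L)
    (fun g : I.L ≃ₐ[I.k] I.L => ((g : I.L ≃+* I.L) : I.L →+* I.L)) hcard hinj
    (fun i j y => by
      show i (algebraMap I.k I.L y) = j (algebraMap I.k I.L y)
      rw [i.commutes, j.commutes])
    (I.W hπ) 1 b
    (fun g => by
      show g b ∈ I.W hπ
      rw [I.mem_W hπ]
      exact (I.conj_mem_iff hπ hE0 hX0 g b).mpr hb) n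
  exact h

end Uniq

end IgusaInput

end Fermat.Agent.DS.Igu77.Input
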