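/-
DS / chapter G-RED, brick IGU-FIN (helper77), part 2: **(SPAN) for every field between
`E₀ = K(j(q^d) : d ∣ M)` and the level-`M` field**.

Setting of `Input.lean`.  Let `E₁` be an intermediate field of `K((q)) / K` with
`E₀ ≤ E₁ ≤ ι(L)`, `E₁ ≤ Frac O((q))` (e.g. `E₁ = K·F₁(M)`, the function field of `X₁(M)`).
If (SPAN) holds for `E₀` over `K(j)` (this is `G1Package8.span` for the `X₀(M)` theorem), then
(SPAN) holds for `E₁` over `K(j)`:

  every Gauss-integral `x ∈ E₁` is integral over `Ov0 = K(j) ∩ gaussRing`.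

Proof: the minimal polynomial of `x` over `k ≅ K(j(q^M))` has Gauss-integral coefficients
(`IgusaInput.coeff_minpoly_mem`, i.e. the decomposition group is everything); these coefficients lie
in `K(j(q^M)) ⊂ E₀`, hence are integral over `Ov0` by (SPAN) for `E₀`; transitivity.
-/
import Mathlib
import Fermat.Agent.DS.Igu77.Input
import Fermat.Agent.RED.PUR.G1Package8

set_option autoImplicit false
set_option linter.unusedSectionVars false

noncomputable section

namespace Fermat.Agent.DS.Igu77.Span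

open HahnSeries ModularCurve IntermediateField Polynomial
open Fermat.Agent.RED.PUR.GaussGen8 Fermat.Agent.RED.PUR.KtGauss8
  Fermat.Agent.RED.PUR.G1Package8 Fermat.Agent.DS.Igu77.Input

variable {K : Type} [Field K] {O : ValuationSubring K} [IsDiscreteValuationRing ↥O]
  {π : ↥O} (hπ : Irreducible π) {M : ℕ} [NeZero M]

/-- `K(j(q^M)) ≤ E₀`. -/
theorem base_le_E0 : K⟮qExpand K M (jqModC K)⟯ ≤ modularFunctionFieldFullC K M := by
  rw [adjoin_simple_le_iff]
  exact jqModCd_mem_full K M dvd_rfl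

section Transfer

variable (tG : ↥(gaussRing O)) {E E' : IntermediateField K (LaurentSeries K)} (h : E ≤ E')

/-- `Ov0` of a subfield maps to `Ov0` of the bigger field. -/
def ov0Map : ↥(Ov0 O E tG) →+* ↥(Ov0 O E' tG) where
  toFun r := ⟨⟨((r : ↥E) : LaurentSeries K), h (r : ↥E).2⟩, r.2⟩
  map_one' := rfl
  map_mul' _ _ := rfl
  map_zero' := rfl
  map_add' _ _ := rfl

/-- the inclusion `E → E'` as a ring hom. -/
def inclHom : ↥E →+* ↥E' where
  toFun x := ⟨(x : LaurentSeries K), h x.2⟩
  map_one' := rfl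
  map_mul' _ _ := rfl
  map_zero' := rfl
  map_add' _ _ := rfl

theorem isIntegral_inclHom {x : ↥E} (hx : IsIntegral ↥(Ov0 O E tG) x) :
    IsIntegral ↥(Ov0 O E' tG) (inclHom h x) :=
  IsIntegral.map_of_comp_eq (ov0Map tG h) (inclHom h) (RingHom.ext fun _ => rfl) hx

end Transfer

include hπ in
/-- **(SPAN) for `E₁`** from the Igusa input and (SPAN) for `E₀`. -/
theorem isIntegral_of_input (I : IgusaInput K O M)
    (hE0 : modularFunctionFieldFullC K M ≤ fracField O) (hX0 : X0Uniq K O M)
    (jG : ↥(gaussRing O))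
    (hspan0 : ∀ x : ↥(modularFunctionFieldFullC K M),
      (x : LaurentSeries K) ∈ gaussRing O →
        IsIntegral ↥(Ov0 O (modularFunctionFieldFullC K M) jG) x)
    (E₁ : IntermediateField K (LaurentSeries K))
    (h01 : modularFunctionFieldFullC K M ≤ E₁)
    (hE1L : ∀ y ∈ E₁, ∃ b : I.L, I.ι b = y)
    (x : ↥E₁) (hx : (x : LaurentSeries K) ∈ gaussRing O) :
    IsIntegral ↥(Ov0 O E₁ jG) x := by
  classical
  have hunif : IsUnif O π := isUnif_of_irreducible O hπ
  obtain ⟨b, hb⟩ := hE1L (x : LaurentSeries K) x.2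
  have hbG : I.ι b ∈ gaussRing O := by rw [hb]; exact hx
  have hbint : IsIntegral I.k b := Algebra.IsIntegral.isIntegral b
  -- the base field maps into `E₁`
  have hk1 : ∀ c : I.k, I.ι (algebraMap I.k I.L c) ∈ E₁ := fun c =>
    h01 (base_le_E0 (I.base_mem c))
  let φ₁ : I.k →+* ↥E₁ :=
    { toFun := fun c => ⟨I.ι (algebraMap I.k I.L c), hk1 c⟩
      map_one' := Subtype.ext (by simp)
      map_mul' := fun a c => Subtype.ext (by simp)
      map_zero' := Subtype.ext (by simp)
      map_add' := fun a c => Subtype.ext (by simp) }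
  let P := minpoly I.k b
  -- `x` is a root of `P.map φ₁`
  have hroot : (P.map φ₁).eval x = 0 := by
    rw [eval_map]
    apply Subtype.ext
    have h1 := Polynomial.hom_eval₂ P φ₁ E₁.val.toRingHom x
    have hcomp : E₁.val.toRingHom.comp φ₁ = I.ι.comp (algebraMap I.k I.L) := RingHom.ext fun c => rfl
    rw [hcomp] at h1
    have h2 := Polynomial.hom_eval₂ P (algebraMap I.k I.L) I.ι b
    have h3 : P.eval₂ (algebraMap I.k I.L) b = 0 := by
      have := minpoly.aeval I.k b
      rwa [aeval_def] at this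
    rw [h3, map_zero] at h2
    show E₁.val.toRingHom (P.eval₂ φ₁ x) = 0
    rw [h1]
    show P.eval₂ (I.ι.comp (algebraMap I.k I.L)) ((x : ↥E₁) : LaurentSeries K) = 0
    rw [← hb]
    exact h2.symm
  have hmonic : (P.map φ₁).Monic := (minpoly.monic hbint).map φ₁
  -- the coefficients are integral over `Ov0`
  have hcoeff : ∀ n : ℕ, IsIntegral ↥(Ov0 O E₁ jG) ((P.map φ₁).coeff n) := by
    intro n
    rw [coeff_map]
    have hd : I.ι (algebraMap I.k I.L (P.coeff n)) ∈ modularFunctionFieldFullC K M :=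
      base_le_E0 (I.base_mem _)
    have hdG : I.ι (algebraMap I.k I.L (P.coeff n)) ∈ gaussRing O :=
      I.coeff_minpoly_mem hunif hE0 hX0 b hbG n
    have h0 := hspan0 ⟨_, hd⟩ hdG
    exact isIntegral_inclHom jG h01 h0
  -- lift to the integral closure and conclude by idempotence
  let A := integralClosure ↥(Ov0 O E₁ jG) ↥E₁
  have hlifts : P.map φ₁ ∈ Polynomial.lifts (algebraMap ↥A ↥E₁) := by
    rw [Polynomial.lifts_iff_coeff_lifts]
    intro n
    exact ⟨⟨_, hcoeff n⟩, rfl⟩
  obtain ⟨q, hq, -, hqm⟩ := Polynomial.lifts_and_natDegree_eq_and_monic hlifts hmonic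
  have hxA : IsIntegral ↥A x := by
    refine ⟨q, hqm, ?_⟩
    rw [← eval_map, hq]
    exact hroot
  have hmem : x ∈ integralClosure ↥A ↥E₁ := hxA
  rw [integralClosure_idem] at hmem
  obtain ⟨a, ha⟩ := Algebra.mem_bot.mp hmem
  rw [← ha]
  exact a.2

end Fermat.Agent.DS.Igu77.Span
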