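/-
DS / chapter G-RED, brick IGU-FIN (helper77), part 2': **(SPAN) in the transported form**
(`V = (q ↦ Q^M)`, the form produced by the Galois-closure chapter IGU-D: `Ltop ⊂ K((Q))`, `Q = q_M`).

Setting of `Input.lean`.  Let `E₁` be an intermediate field of `K((q)) / K` containing `j` with
`V(E₁) ⊆ ι(L)` (e.g. `E₁ = K·F₁(M)`; the cusp expansion at `∞` in the variable `Q = q^{1/M}` is
`V`).  Then every Gauss-integral `x ∈ E₁` is integral over `Ov0 = K(j) ∩ gaussRing`.

Proof: `ι b = V x`; the minimal polynomial of `b` over `k` has Gauss-integral coefficients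
(`IgusaInput.coeff_minpoly_mem`); they lie in `ι k = K(j(Q^M)) = V(K(j))`, so they are `V d_n` with
`d_n ∈ K(j) ∩ gaussRing = Ov0` (`V` is an isometry for the Gauss valuations); as `V` is injective,
`x` is a root of the monic polynomial `∑ d_n Xⁿ`.  Only the uniqueness form `X0Uniq` of the
`X₀(M)` theorem is used.
-/
import Mathlib
import Fermat.Agent.DS.Igu77.Input
import Fermat.Agent.RED.PUR.G1Package8

set_option autoImplicit false
set_option linter.unusedSectionVars false

noncomputable section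

namespace Fermat.Agent.DS.Igu77.SpanV

open HahnSeries ModularCurve IntermediateField Polynomial
open Fermat.Agent.RED.PUR.GaussGen8 Fermat.Agent.RED.PUR.KtGauss8
  Fermat.Agent.RED.PUR.G1Package8 Fermat.Agent.DS.Igu77.Input Fermat.Agent.DS.Igu77.Isometry

variable {K : Type} [Field K] {O : ValuationSubring K} [IsDiscreteValuationRing ↥O]
  {π : ↥O} (hπ : Irreducible π) {M : ℕ} [NeZero M]

/-- `K(j(Q^M)) = V(K(j))`, elementwise. -/
theorem exists_of_mem_base {y : LaurentSeries K} (hy : y ∈ K⟮qExpand K M (jqModC K)⟯) :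
    ∃ d ∈ K⟮jqModC K⟯, qExpand K M d = y := by
  have h1 : y ∈ (K⟮jqModC K⟯).map (qExpandAlgHomC K M) := by
    rw [IntermediateField.adjoin_map, Set.image_singleton]
    exact hy
  obtain ⟨d, hd, hdy⟩ := h1
  exact ⟨d, hd, hdy⟩

theorem qExpand_injective : Function.Injective (qExpand K M) := by
  intro a b hab
  exact (qExpandAlgHomC K M).toRingHom.injective hab

include hπ in
/-- **(SPAN) for `E₁`, transported form.** -/
theorem isIntegral_of_input_V (I : IgusaInput K O M)
    (hE0 : modularFunctionFieldFullC K M ≤ fracField O) (hX0 : X0Uniq K O M)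
    (jG : ↥(gaussRing O)) (hjG : (jG : LaurentSeries K) = jqModC K)
    (E₁ : IntermediateField K (LaurentSeries K))
    (hj1 : jqModC K ∈ E₁)
    (hE1L : ∀ y ∈ E₁, ∃ b : I.L, I.ι b = qExpand K M y)
    (x : ↥E₁) (hx : (x : LaurentSeries K) ∈ gaussRing O) :
    IsIntegral ↥(Ov0 O E₁ jG) x := by
  classical
  have hunif : IsUnif O π := isUnif_of_irreducible O hπ
  obtain ⟨b, hb⟩ := hE1L (x : LaurentSeries K) x.2
  have hbG : I.ι b ∈ gaussRing O := by rw [hb]; exact qExpand_mem_gaussRing O M hx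
  have hbint : IsIntegral I.k b := Algebra.IsIntegral.isIntegral b
  have hKt : Kt O jG = K⟮jqModC K⟯ := by
    show K⟮(jG : LaurentSeries K)⟯ = _
    rw [hjG]
  have hKt1 : K⟮jqModC K⟯ ≤ E₁ := by
    rw [adjoin_simple_le_iff]
    exact hj1
  -- the ring hom `Ov0 → K((Q))`, `r ↦ V r`
  let V' : ↥E₁ →+* LaurentSeries K := (qExpandAlgHomC K M).toRingHom.comp E₁.val.toRingHom
  have hV' : ∀ y : ↥E₁, V' y = qExpand K M (y : LaurentSeries K) := fun _ => rfl
  have hV'inj : Function.Injective V' := V'.injective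
  let ψ : ↥(Ov0 O E₁ jG) →+* LaurentSeries K := V'.comp (algebraMap ↥(Ov0 O E₁ jG) ↥E₁)
  let P := minpoly I.k b
  let φ : I.k →+* LaurentSeries K := I.ι.comp (algebraMap I.k I.L)
  have hmonic : (P.map φ).Monic := (minpoly.monic hbint).map φ
  -- the coefficients lie in the range of `ψ`
  have hlifts : P.map φ ∈ Polynomial.lifts ψ := by
    rw [Polynomial.lifts_iff_coeff_lifts]
    intro n
    rw [coeff_map]
    have hdG : I.ι (algebraMap I.k I.L (P.coeff n)) ∈ gaussRing O :=
      I.coeff_minpoly_mem hunif hE0 hX0 b hbG n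
    obtain ⟨d, hd, hdy⟩ := exists_of_mem_base (I.base_mem (P.coeff n))
    have hdfrac : d ∈ fracField O := by
      have : d ∈ Kt O jG := by rw [hKt]; exact hd
      exact Kt_le_fracField this
    have hdgauss : d ∈ gaussRing O := by
      rw [← qExpand_mem_gaussRing_iff M hunif hdfrac, hdy]
      exact hdG
    refine ⟨⟨⟨d, hKt1 hd⟩, ?_, hdgauss⟩, ?_⟩
    · show d ∈ Kt O jG
      rw [hKt]; exact hd
    · show qExpand K M d = φ (P.coeff n)
      rw [hdy]
      rfl
  obtain ⟨q, hq, -, hqm⟩ := Polynomial.lifts_and_natDegree_eq_and_monic hlifts hmonic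
  refine ⟨q, hqm, ?_⟩
  apply hV'inj
  rw [map_zero]
  have h1 := Polynomial.hom_eval₂ q (algebraMap ↥(Ov0 O E₁ jG) ↥E₁) V' x
  rw [h1]
  show q.eval₂ ψ (V' x) = 0
  rw [← eval_map, hq, eval_map, hV', ← hb]
  have h2 := Polynomial.hom_eval₂ P (algebraMap I.k I.L) I.ι b
  have h3 : P.eval₂ (algebraMap I.k I.L) b = 0 := by
    have := minpoly.aeval I.k b
    rwa [aeval_def] at this
  rw [h3, map_zero] at h2
  exact h2.symm

end Fermat.Agent.DS.Igu77.SpanV
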