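/-
DS / chapter G-RED, brick IGU-FIN (helper77), part 3: **the `X₀(M)` inputs of the Igusa argument are
theorems** (programme H: `GaussInst25.exists_degLe_irr_fullC` + `G1Package8.span` +
helper51's `Abs51Uniq.mem_iff_of_trace`), hence

  `isIntegral_of_igusaInput` : for a DVR `O ⊂ K` (char `K = 0`, residue characteristic `ℓ ∤ M`) and an
  `IgusaInput K O M`, every Gauss-integral element of a field `E₁` with
  `K(j(q^d) : d ∣ M) ≤ E₁ ≤ ι(L)` is integral over `K(j) ∩ gaussRing`   — **(SPAN) for `E₁`**.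
-/
import Mathlib
import Fermat.Agent.DS.Igu77.Span
import Fermat.Agent.DS.Igu77.SpanV
import Fermat.Agent.RED.PUR.GaussInst25
import Fermat.Agent.DS.G.RED.Igusa.Abs51Uniq

set_option autoImplicit false
set_option linter.unusedSectionVars false

noncomputable section

namespace Fermat.Agent.DS.Igu77.X0Inst

open HahnSeries ModularCurve IntermediateField Polynomial
open Fermat.Agent.RED.PUR.GaussGen8 Fermat.Agent.RED.PUR.KtGauss8
  Fermat.Agent.RED.PUR.G1Package8 Fermat.Agent.RED.PUR.GaussBridge10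
  Fermat.Agent.RED.PUR.GaussInst25 Fermat.Agent.DS.Igu77.Input

variable {K : Type} [Field K] [CharZero K] (O : ValuationSubring K) [IsDiscreteValuationRing ↥O]
  {π : ↥O} (hπ : Irreducible π) (ℓ : ℕ) [Fact ℓ.Prime] [CharP (Res O) ℓ]
  (M : ℕ) [NeZero M] (hℓM : ¬ ℓ ∣ M)

theorem transcendental_gaussRed_jG : Transcendental (Res O) (gaussRed O (jG O)) := by
  rw [gaussRed_jG]
  exact Fermat.Agent.IG.VAL.OvBasics22.transcendental_jqModC (Res O)

theorem jG_mem_full : ((jG O : ↥(gaussRing O)) : LaurentSeries K) ∈ modularFunctionFieldFullC K M :=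
  jqModC_mem_full K M

theorem jq_mem_Kt_jG : jqModC K ∈ Kt O (jG O) :=
  IntermediateField.subset_adjoin K _ (Set.mem_singleton _)

include hπ hℓM in
/-- (DEG)+(IRR) for `E₀` at the parameter `j`. -/
theorem exists_degLe_irr_j : ∃ n : ℕ, n ≠ 0 ∧ DegLe O (modularFunctionFieldFullC K M) (jG O) n ∧
    Irr O (modularFunctionFieldFullC K M) (jG O) n :=
  exists_degLe_irr_fullC O hπ ℓ M hℓM (jG O) (jG_mem_full O M) (jq_mem_Kt_jG O)

include hπ hℓM in
/-- **Igusa for `X₀(M)`, uniqueness form.** -/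
theorem x0Uniq : X0Uniq K O M := by
  obtain ⟨n, -, hdeg, hirr⟩ := exists_degLe_irr_j O hπ ℓ M hℓM
  intro W'' htrace x
  exact Fermat.Agent.DS.G.RED.Igusa.Abs51Uniq.mem_iff_of_trace hπ (fullC_le_fracField O M)
    (transcendental_gaussRed_jG O) (jG_mem_full O M) hdeg hirr W'' htrace x

include hπ hℓM in
/-- **(SPAN) for `E₀`** at the parameter `j`. -/
theorem span0 (x : ↥(modularFunctionFieldFullC K M)) (hx : (x : LaurentSeries K) ∈ gaussRing O) :
    IsIntegral ↥(Ov0 O (modularFunctionFieldFullC K M) (jG O)) x := by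
  obtain ⟨n, -, hdeg, hirr⟩ := exists_degLe_irr_j O hπ ℓ M hℓM
  exact span hπ (fullC_le_fracField O M) (transcendental_gaussRed_jG O) (jG_mem_full O M) hdeg hirr x
    ((mem_OvE_iff O hπ _ (fullC_le_fracField O M) x).mpr hx)

include hπ hℓM in
/-- **(SPAN) for every field between `E₀ = K(j(q^d) : d ∣ M)` and the level-`M` field.** -/
theorem isIntegral_of_igusaInput (I : IgusaInput K O M)
    (E₁ : IntermediateField K (LaurentSeries K))
    (h01 : modularFunctionFieldFullC K M ≤ E₁)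
    (hE1L : ∀ y ∈ E₁, ∃ b : I.L, I.ι b = y)
    (x : ↥E₁) (hx : (x : LaurentSeries K) ∈ gaussRing O) :
    IsIntegral ↥(Ov0 O E₁ (jG O)) x :=
  Fermat.Agent.DS.Igu77.Span.isIntegral_of_input hπ I (fullC_le_fracField O M)
    (x0Uniq O hπ ℓ M hℓM) (jG O) (span0 O hπ ℓ M hℓM) E₁ h01 hE1L x hx

include hπ hℓM in
/-- **(SPAN), transported form** (the form matching the Galois-closure chapter: `V(E₁) ⊆ ι(L)`,
`V = (q ↦ Q^M)`): every Gauss-integral element of `E₁` is integral over `K(j) ∩ gaussRing`. -/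
theorem isIntegral_of_igusaInput_V (I : IgusaInput K O M)
    (E₁ : IntermediateField K (LaurentSeries K)) (hj1 : jqModC K ∈ E₁)
    (hE1L : ∀ y ∈ E₁, ∃ b : I.L, I.ι b = qExpand K M y)
    (x : ↥E₁) (hx : (x : LaurentSeries K) ∈ gaussRing O) :
    IsIntegral ↥(Ov0 O E₁ (jG O)) x :=
  Fermat.Agent.DS.Igu77.SpanV.isIntegral_of_input_V hπ I (fullC_le_fracField O M)
    (x0Uniq O hπ ℓ M hℓM) (jG O) rfl E₁ hj1 hE1L x hx

end Fermat.Agent.DS.Igu77.X0Inst
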