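/-
DS / chapter G-RED, brick IGU-FIN (helper77), part 4: **(DEG) + (IRR) for every field below the
level-`M` field, at every parameter `t` with `j ∈ K(t)`**.

`K` of characteristic `0`, `O ⊂ K` a DVR with residue characteristic `ℓ ∤ M`, `I : IgusaInput K O M`
(the level-`M` field `L ⊂ K((Q))`, `Q = q^{1/M}`, with its Galois action).  Let `E₁ ≤ Frac O((q))` be
an intermediate field of `K((q))/K` containing `j` with `V(E₁) ⊆ ι(L)`, `V = (q ↦ Q^M)`, and let
`t ∈ E₁` be Gauss-integral with transcendental reduction and `j ∈ K(t)`.  Then with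
`n = [E₁ : K(t)]`:

  `n ≠ 0 ∧ G1Package8.DegLe O E₁ t n ∧ G1Package8.Irr O E₁ t n`   (`g1_of_igusaInput`).

Chain: `X0Inst.isIntegral_of_igusaInput_V` ((SPAN) over `K(j) ∩ gaussRing`) → change of parameter
(`Ov0` is monotone in `K(t)`) → helper29's `IrrOfSpan.g1_of_span`.  Finite-dimensionality of
`E₁ / K(t)` is derived from `[L : k] < ∞` (`family_bound`).
-/
import Mathlib
import Fermat.Agent.DS.Igu77.X0Inst
import Fermat.Agent.DS.G.RED.Igusa.IrrOfSpan
import Fermat.Agent.IG.PR.FamilyForm20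
import Fermat.Agent.RED.ModelAsm4

set_option autoImplicit false
set_option linter.unusedSectionVars false

noncomputable section

namespace Fermat.Agent.DS.Igu77.Final

open HahnSeries ModularCurve IntermediateField Polynomial
open Fermat.Agent.RED.PUR.GaussGen8 Fermat.Agent.RED.PUR.KtGauss8
  Fermat.Agent.RED.PUR.G1Package8 Fermat.Agent.RED.PUR.GaussBridge10
  Fermat.Agent.RED.PUR.GaussInst25 Fermat.Agent.DS.Igu77.Input Fermat.Agent.DS.Igu77.SpanV

/-! ### generalities -/

section General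

/-- a vector space in which linearly independent finite sets have bounded size is
finite-dimensional. -/
theorem finite_of_bound {k V : Type*} [DivisionRing k] [AddCommGroup V] [Module k V] (m : ℕ)
    (h : ∀ s : Finset V, LinearIndependent k (fun i : s => (i : V)) → s.card ≤ m) :
    Module.Finite k V := by
  have h1 : Module.rank k V ≤ m := rank_le h
  exact Module.rank_lt_aleph0_iff.mp (lt_of_le_of_lt h1 (Cardinal.natCast_lt_aleph0))

variable {F E : Type*} [Field F] [Field E] [Algebra F E] {A B : IntermediateField F E}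

/-- family-form upper bound ⇒ `relfinrank ≠ 0`. -/
theorem relfinrank_ne_zero_of_family_bound (h : A ≤ B) (m : ℕ)
    (hub : ∀ (n : ℕ) (c : Fin n → E), (∀ i, c i ∈ B) → LinearIndependent ↥A c → n ≤ m) :
    relfinrank A B ≠ 0 := by
  rw [relfinrank_eq_finrank_of_le h]
  have : Module.Finite ↥A ↥(extendScalars h) := by
    refine finite_of_bound m fun s hs => ?_
    classical
    let e := s.equivFin
    let c : Fin s.card → E := fun i => (((e.symm i : s) : ↥(extendScalars h)) : E)
    have hc : ∀ i, c i ∈ B := fun i => ((e.symm i : s) : ↥(extendScalars h)).2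
    refine hub s.card c hc ?_
    have h1 : LinearIndependent ↥A (fun i : Fin s.card => ((e.symm i : s) : ↥(extendScalars h))) :=
      hs.comp _ e.symm.injective
    have h2 := h1.map' (extendScalars h).val.toLinearMap
      (LinearMap.ker_eq_bot.mpr (extendScalars h).val.injective)
    exact h2
  exact (Module.finrank_pos).ne'

end General

variable {K : Type} [Field K] [CharZero K] (O : ValuationSubring K) [IsDiscreteValuationRing ↥O]
  {π : ↥O} (hπ : Irreducible π) (ℓ : ℕ) [Fact ℓ.Prime] [CharP (Res O) ℓ]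
  (M : ℕ) [NeZero M] (hℓM : ¬ ℓ ∣ M)

/-! ### finiteness of `E₁ / K(j)` -/

omit [CharZero K] [IsDiscreteValuationRing ↥O] in
/-- A `K(j)`-linearly independent family in `E₁` has at most `[L : k]` members. -/
theorem family_bound {O : ValuationSubring K} {M : ℕ} [NeZero M] (I : IgusaInput K O M)
    (E₁ : IntermediateField K (LaurentSeries K))
    (hE1L : ∀ y ∈ E₁, ∃ b : I.L, I.ι b = qExpand K M y)
    (n : ℕ) (c : Fin n → LaurentSeries K) (hc : ∀ i, c i ∈ E₁)
    (hli : LinearIndependent ↥(K⟮jqModC K⟯) c) : n ≤ Module.finrank I.k I.L := by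
  classical
  choose b hb using fun i => hE1L (c i) (hc i)
  have hbli : LinearIndependent I.k b := by
    rw [Fintype.linearIndependent_iff]
    intro a ha i
    choose d hd hdy using fun i => exists_of_mem_base (I.base_mem (a i))
    have h1 : ∑ i, I.ι (algebraMap I.k I.L (a i)) * qExpand K M (c i) = 0 := by
      have h0 := congrArg I.ι ha
      rw [map_sum, map_zero] at h0
      rw [← h0]
      refine Finset.sum_congr rfl fun i _ => ?_
      rw [Algebra.smul_def, map_mul, hb]
    have h2 : qExpand K M (∑ i, d i * c i) = 0 := by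
      rw [map_sum, ← h1]
      refine Finset.sum_congr rfl fun i _ => ?_
      rw [map_mul, hdy]
    have h3 : ∑ i, d i * c i = 0 := qExpand_injective (M := M) (by rw [h2, map_zero])
    have h4 := Fintype.linearIndependent_iff.mp hli (fun i => ⟨d i, hd i⟩) h3 i
    have h5 : d i = 0 := congrArg Subtype.val h4
    have h6 : I.ι (algebraMap I.k I.L (a i)) = 0 := by rw [← hdy i, h5, map_zero]
    have h7 : algebraMap I.k I.L (a i) = 0 := I.ι_injective (by rw [h6, map_zero])
    exact (algebraMap I.k I.L).injective (by rw [h7, map_zero])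
  have := hbli.fintype_card_le_finrank
  simpa using this

omit [CharZero K] [IsDiscreteValuationRing ↥O] in
/-- `[E₁ : K(j)] ≠ 0`, i.e. `E₁ / K(j)` is finite. -/
theorem relfinrank_j_ne_zero {O : ValuationSubring K} {M : ℕ} [NeZero M] (I : IgusaInput K O M)
    (E₁ : IntermediateField K (LaurentSeries K)) (hj1 : jqModC K ∈ E₁)
    (hE1L : ∀ y ∈ E₁, ∃ b : I.L, I.ι b = qExpand K M y) :
    relfinrank (K⟮jqModC K⟯) E₁ ≠ 0 :=
  relfinrank_ne_zero_of_family_bound (adjoin_simple_le_iff.mpr hj1) (Module.finrank I.k I.L)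
    (family_bound I E₁ hE1L)

omit [CharZero K] [IsDiscreteValuationRing ↥O] in
/-- `[E₁ : K(t)] ≠ 0` for every `t ∈ E₁` with `j ∈ K(t)`. -/
theorem relfinrank_t_ne_zero {O : ValuationSubring K} {M : ℕ} [NeZero M] (I : IgusaInput K O M)
    (E₁ : IntermediateField K (LaurentSeries K))
    (hE1L : ∀ y ∈ E₁, ∃ b : I.L, I.ι b = qExpand K M y)
    (t : LaurentSeries K) (htE : t ∈ E₁) (hjt : jqModC K ∈ K⟮t⟯) :
    relfinrank (K⟮t⟯) E₁ ≠ 0 := by
  have h1 : K⟮jqModC K⟯ ≤ K⟮t⟯ := adjoin_simple_le_iff.mpr hjt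
  have h2 : K⟮t⟯ ≤ E₁ := adjoin_simple_le_iff.mpr htE
  have h3 := relfinrank_j_ne_zero I E₁ (h2 hjt) hE1L
  rw [← relfinrank_mul_relfinrank h1 h2] at h3
  exact right_ne_zero_of_mul h3

/-! ### change of parameter -/

section Param

variable {O} {E : IntermediateField K (LaurentSeries K)} {jG tG : ↥(gaussRing O)}

omit [CharZero K] in
/-- `Ov0` is monotone in the parameter field. -/
theorem isIntegral_Ov0_of_le (h : Kt O jG ≤ Kt O tG) {x : ↥E}
    (hx : IsIntegral ↥(Ov0 O E jG) x) : IsIntegral ↥(Ov0 O E tG) x := by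
  let φ : ↥(Ov0 O E jG) →+* ↥(Ov0 O E tG) :=
    { toFun := fun r => ⟨(r : ↥E), h r.2.1, r.2.2⟩
      map_one' := rfl
      map_mul' := fun _ _ => rfl
      map_zero' := rfl
      map_add' := fun _ _ => rfl }
  have := hx.map_of_comp_eq φ (RingHom.id ↥E) (by ext; rfl)
  simpa using this

end Param

/-! ### the final statement -/

include hπ hℓM in
/-- **(SPAN) at a parameter `t` with `j ∈ K(t)`.** -/
theorem span_of_igusaInput (I : IgusaInput K O M)
    (E₁ : IntermediateField K (LaurentSeries K)) (hj1 : jqModC K ∈ E₁)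
    (hE1L : ∀ y ∈ E₁, ∃ b : I.L, I.ι b = qExpand K M y)
    (tG : ↥(gaussRing O)) (hjt : jqModC K ∈ Kt O tG)
    (x : ↥E₁) (hx : (x : LaurentSeries K) ∈ gaussRing O) :
    IsIntegral ↥(Ov0 O E₁ tG) x := by
  have h1 : Kt O (jG O) ≤ Kt O tG := adjoin_simple_le_iff.mpr hjt
  exact isIntegral_Ov0_of_le h1
    (Fermat.Agent.DS.Igu77.X0Inst.isIntegral_of_igusaInput_V O hπ ℓ M hℓM I E₁ hj1 hE1L x hx)

include hπ hℓM in
/-- **(G1) = (`n ≠ 0`, (DEG), (IRR)) for `E₁`** at every Gauss-integral parameter `t ∈ E₁` with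
transcendental reduction and `j ∈ K(t)`. -/
theorem g1_of_igusaInput (I : IgusaInput K O M)
    (E₁ : IntermediateField K (LaurentSeries K)) (hE1 : E₁ ≤ fracField O)
    (hE1L : ∀ y ∈ E₁, ∃ b : I.L, I.ι b = qExpand K M y)
    (tG : ↥(gaussRing O)) (htE : (tG : LaurentSeries K) ∈ E₁) (hjt : jqModC K ∈ Kt O tG)
    (htr : Transcendental (Res O) (gaussRed O tG)) :
    relfinrank (Kt O tG) E₁ ≠ 0 ∧ DegLe O E₁ tG (relfinrank (Kt O tG) E₁) ∧
      Irr O E₁ tG (relfinrank (Kt O tG) E₁) := by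
  have hj1 : jqModC K ∈ E₁ := Kt_le (tG := tG) htE hjt
  have hn : relfinrank (Kt O tG) E₁ ≠ 0 :=
    relfinrank_t_ne_zero I E₁ hE1L (tG : LaurentSeries K) htE hjt
  have hfd : FiniteDimensional ↥(IntermediateField.adjoin K {(⟨(tG : LaurentSeries K), htE⟩ : ↥E₁)})
      ↥E₁ :=
    Fermat.Agent.RED.ModelAsm4.finiteDimensional_adjoin _ hn
  exact Fermat.Agent.DS.G.RED.Igusa.IrrOfSpan.g1_of_span O hπ E₁ hE1
    ⟨(tG : LaurentSeries K), htE⟩ tG.2 htr
    (fun x hx => span_of_igusaInput O hπ ℓ M hℓM I E₁ hj1 hE1L tG hjt x hx)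

include hπ hℓM in
/-- the same in the `∃ n` form of `GaussInst25.exists_degLe_irr_fullC`. -/
theorem exists_degLe_irr_of_igusaInput (I : IgusaInput K O M)
    (E₁ : IntermediateField K (LaurentSeries K)) (hE1 : E₁ ≤ fracField O)
    (hE1L : ∀ y ∈ E₁, ∃ b : I.L, I.ι b = qExpand K M y)
    (tG : ↥(gaussRing O)) (htE : (tG : LaurentSeries K) ∈ E₁) (hjt : jqModC K ∈ Kt O tG)
    (htr : Transcendental (Res O) (gaussRed O tG)) :
    ∃ n : ℕ, n ≠ 0 ∧ DegLe O E₁ tG n ∧ Irr O E₁ tG n :=
  ⟨_, g1_of_igusaInput O hπ ℓ M hℓM I E₁ hE1 hE1L tG htE hjt htr⟩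

end Fermat.Agent.DS.Igu77.Final
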